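import Fermat.Agent.MazurPrinciple.PThree.LevelFour

/-!
# The poles of `j` on the fibre at three are tame

At a level divisible by four and prime to three reduction is injective on the cusps, as all the
ramification of the coordinate lies there; the widths are prime to three.
-/

set_option autoImplicit false
set_option linter.unusedSectionVars false
set_option linter.style.haveILetI false
set_option maxHeartbeats 1000000

noncomputable section

open Polynomial AlgebraicCurve IntermediateField IsLocalRing
open FermatAgent.Curve FermatAgent.JacCharts FermatAgent.ModFun FermatAgent.BadRed.Semistable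
open FermatAgent.BadRed.Carayol.Instance FermatAgent.Curve.RR
open ModularCurve (modularFunctionFieldFullC modularFunctionFieldBar)

namespace FermatAgent.MazurPrinciple.PThree

local notation "Qb" => AlgebraicClosure ℚ

/-- When poles move to poles the degree cannot grow. -/
theorem finrank_adjoin_le_of_redsTo {K F : Type*} [Field K] [Field F] [Algebra K F] [IsAlgClosed K]
    [IsFunctionField1 K F] {A : ValuationSubring K} {k : Type*} [Field k] [IsAlgClosed k]
    {π : A →+* k} {Fb : Type*} [Field Fb] [Algebra k Fb] [IsFunctionField1 k Fb]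
    (d : GoodReductionDatum A π F Fb) {x : F} {xb : Fb} (hx : d.RedsTo x xb)
    (hT : Transcendental K x) (hTb : Transcendental k xb) :
    Module.finrank k⟮xb⟯ Fb ≤ Module.finrank K⟮x⟯ F := by
  have hle := polePart_le_redDiv d hx (fun e => hTb (e ▸ isAlgebraic_zero))
  have h := JacCharts.degree_nonneg (sub_nonneg.mpr hle)
  rw [map_sub, GoodReductionDatum.degree_redDiv, Curve.RR.degree_polePart_eq hT,
    Curve.RR.degree_polePart_eq hTb] at h
  omega

/-- When the degree is kept, the polar divisor reduces to the polar divisor. -/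
theorem redDiv_polePart_eq {K F : Type*} [Field K] [Field F] [Algebra K F] [IsAlgClosed K]
    [IsFunctionField1 K F] {A : ValuationSubring K} {k : Type*} [Field k] [IsAlgClosed k]
    {π : A →+* k} {Fb : Type*} [Field Fb] [Algebra k Fb] [IsFunctionField1 k Fb]
    (d : GoodReductionDatum A π F Fb) {x : F} {xb : Fb} (hx : d.RedsTo x xb)
    (hT : Transcendental K x) (hTb : Transcendental k xb)
    (hdeg : Module.finrank k⟮xb⟯ Fb = Module.finrank K⟮x⟯ F) (R : Place k Fb) :
    d.redDiv (polePart (K := K) x) R = polePart (K := k) xb R := by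
  classical
  have hle := polePart_le_redDiv d hx (fun e => hTb (e ▸ isAlgebraic_zero))
  refine le_antisymm (not_lt.mp fun hlt => ?_) (Finsupp.le_def.mp hle R)
  have hD : 0 ≤ d.redDiv (polePart (K := K) x) - polePart (K := k) xb - Finsupp.single R 1 :=
    Finsupp.le_def.mpr fun Q => by
      have h1 := Finsupp.le_def.mp hle Q
      rw [Finsupp.coe_zero, Pi.zero_apply, Finsupp.sub_apply, Finsupp.sub_apply,
        Finsupp.single_apply]
      split_ifs with hQ
      · subst hQ; omega
      · omega
  have h3 := JacCharts.degree_nonneg hD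
  rw [map_sub, map_sub, GoodReductionDatum.degree_redDiv, Curve.RR.degree_polePart_eq hT,
    Curve.RR.degree_polePart_eq hTb, Divisor.degree_single, RRSetting.deg_eq_one, hdeg] at h3
  simp at h3

variable {A : ValuationSubring Qb} {N : ℕ} [NeZero N] (hA : A.LiesOverPrime 3) (h4 : 4 ∣ N)
  (hN3 : ¬ 3 ∣ N) [IsFunctionField1 Qb (modularFunctionFieldBar N)]

include hN3 in
/-- The order of a pole of `j` is prime to three. -/
theorem not_three_dvd_ord_jBar {P : Place Qb (modularFunctionFieldBar N)}
    (hP : P.ord (jBar Qb N) < 0) : ¬ (3 : ℤ) ∣ P.ord (jBar Qb N) := by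
  obtain ⟨P', hP'⟩ := AwayThree.exists_place_C N P
  have e := hP' 0
  simp only [map_zero, sub_zero] at e
  rw [← e] at hP ⊢
  obtain ⟨γ, rfl⟩ := ModCurve.Points.exists_cuspPlace_of_ord_neg N hP
  rw [ModCurve.Points.ord_jBar_cuspPlace, dvd_neg]
  exact fun h => hN3 ((Int.natCast_dvd_natCast.mp h).trans (ModCurve.Points.cuspWidth_dvd N γ))

variable [IsAlgClosed (ResidueField A)]
  [IsFunctionField1 (ResidueField A) (modularFunctionFieldFullC (ResidueField A) N)]

/-- The cusp values in `A`. -/
def cuspVals (A : ValuationSubring Qb) : Finset A :=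
  haveI := Classical.decEq A
  {0, -16}

theorem image_cuspVals [DecidableEq Qb] :
    (cuspVals A).image (fun b : A => (b : Qb)) = {0, -16} := by
  simp [cuspVals, Finset.image_insert, Finset.image_singleton]
  rfl

include h4 hA hN3 in
/-- Reduction is injective on the special places of the coordinate. -/
theorem injOn_special [DecidableEq Qb] :
    Set.InjOn (Igusa.Down.datum N Nat.prime_three hN3 hA).place
      (specialPlaces (uElt Qb H4 h4) ((cuspVals A).image fun b : A => (b : Qb)) :
        Set (Place Qb (modularFunctionFieldBar N))) := by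
  classical
  haveI := Fact.mk (inertiaRes_surjective Nat.prime_three hA)
  haveI := charP_three hA
  haveI := isSeparable_adjoin_uBar H4 h4 A hA hN3
  have hR := hauptmodul4_isCuspPoly (q := 3) not_two_dvd_three
  have hinj : Set.InjOn (residue A) (cuspVals A : Set A) := by
    have h16 : residue A (-16 : A) = 2 := by
      rw [map_neg, map_ofNat]
      linear_combination -6 * three_eq_zero (k := ResidueField A)
    have h2 : (2 : ResidueField A) ≠ 0 := fun h => one_ne_zero (α := ResidueField A) (by
      linear_combination three_eq_zero (k := ResidueField A) - h)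
    intro b hb c hc h
    simp only [cuspVals, Finset.coe_insert, Finset.coe_singleton, Set.mem_insert_iff,
      Set.mem_singleton_iff] at hb hc
    rcases hb with rfl | rfl <;> rcases hc with rfl | rfl <;>
      first | rfl | exact absurd (h16 ▸ h ▸ map_zero (residue A)) h2
  obtain ⟨a₀, ha₀⟩ := Infinite.exists_notMem_finset ((cuspVals A).image (residue A))
  refine (AwayThree.unramified_and_injOn (redsTo_uElt H4 h4 A hA hN3)
    (transcendental_uElt H4 Qb h4) (transcendental_uBar H4 h4 A hA hN3) (le_antisymm
      (finrank_adjoin_le_of_redsTo _ (redsTo_uElt H4 h4 A hA hN3) (transcendental_uElt H4 Qb h4)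
        (transcendental_uBar H4 h4 A hA hN3)) (finrank_le_finrank_uBar H4 h4 A hA hN3 hR))
    (cuspVals A) hinj (fun c hc P => ord_uElt_sub_le_one_bar H4 h4
      (hauptmodul4_isCoord 3 not_two_dvd_three) hR (fun h0 => hc ?_) P) ha₀).2
  rw [image_cuspVals, Finset.mem_insert, Finset.mem_singleton]
  simp only [eval₂_add, eval₂_mul, eval₂_X_pow, eval₂_X, eval₂_C] at h0
  simp only [eq_intCast, Int.cast_ofNat] at h0
  exact (mul_eq_zero.mp (show c * (c + 16) = 0 by linear_combination h0)).imp id
    eq_neg_of_add_eq_zero_left

include h4 in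
/-- The poles of `j` are special for the coordinate. -/
theorem mem_special_of_ord_neg [DecidableEq Qb] {P : Place Qb (modularFunctionFieldBar N)}
    (hP : P.ord (jBar Qb N) < 0) :
    P ∈ specialPlaces (uElt Qb H4 h4) ((cuspVals A).image fun b : A => (b : Qb)) := by
  classical
  set u := uElt Qb H4 h4
  have hT := transcendental_uElt H4 Qb h4
  rw [mem_specialPlaces]
  rcases lt_or_ge (P.ord u) 0 with h | h
  · exact Or.inr h
  refine Or.inl ?_
  have hum : u ∈ P.toValuationSubring := (Curve.mem_iff_ord_nonneg P).mpr (Or.inr h)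
  set c := valueAt P u
  have hrel := aeval_uElt_rel (K := Qb) H4 h4
    (exists_j_eq_eval H4 (hauptmodul4_isCuspPoly not_two_dvd_three)).choose_spec
  have hc : c ∈ ({0, -16} : Finset Qb) := by
    by_contra hc
    simp only [Finset.mem_insert, Finset.mem_singleton, not_or] at hc
    have hRc : (R4.map (Int.castRingHom Qb)).eval c ≠ 0 := by
      rw [eval_map]
      simp only [eval₂_add, eval₂_mul, eval₂_X_pow, eval₂_X, eval₂_C]
      simp only [eq_intCast, Int.cast_ofNat]
      rw [show c ^ 2 + 16 * c = c * (c + 16) by ring]
      exact mul_ne_zero hc.1 fun e => hc.2 (eq_neg_of_add_eq_zero_left e)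
    have hmap : ∀ S : ℤ[X], aeval u S = aeval u (S.map (Int.castRingHom Qb)) := fun S => by
      rw [RingHom.ext_int (Int.castRingHom Qb) (algebraMap ℤ Qb), aeval_map_algebraMap]
    have hR0 : P.ord (aeval u R4) = 0 := by
      rw [hmap]
      refine le_antisymm ?_ (ord_nonneg_of_mem' P (Curve.Diff.aeval_mem P hum _))
      by_contra hlt
      exact hRc ((valueAt_aeval P hum (R4.map (Int.castRingHom Qb))).symm.trans
        ((valueAt_eq_zero_iff P (Curve.Diff.aeval_mem P hum _)).mpr (Or.inr (by omega))))
    have hP0 := ord_nonneg_of_mem' P (Curve.Diff.aeval_mem P hum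
      (((exists_j_eq_eval H4 (hauptmodul4_isCuspPoly not_two_dvd_three)).choose).map
        (Int.castRingHom Qb)))
    have hj0 : jBar Qb N ≠ 0 := fun e => by rw [e, Place.ord_zero] at hP; omega
    have hR1 : aeval u R4 ≠ 0 := by
      rw [hmap]
      exact aeval_ne_zero_of_transcendental hT fun e => hRc (by rw [e, eval_zero])
    rw [← hmap, hrel, P.ord_mul hj0 (pow_ne_zero _ hR1), Curve.ord_pow', hR0, mul_zero,
      add_zero] at hP0
    omega
  refine ⟨c, by rwa [image_cuspVals], ?_⟩
  exact (valueAt_spec P hum).resolve_left fun e =>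
    Curve.transcendental_sub_const hT c (by rw [sub_eq_zero.mpr e]; exact isAlgebraic_zero)

include hA h4 hN3 in
/-- **The order of a pole of `j` on the fibre is prime to three.** -/
theorem not_three_dvd_ord_jFib
    {R : Place (ResidueField A) (modularFunctionFieldFullC (ResidueField A) N)}
    (hR : R.ord (jFib (ResidueField A) N) < 0) :
    ¬ (3 : ℤ) ∣ R.ord (jFib (ResidueField A) N) := by
  classical
  have hr := AwayThree.redsTo_jBar Nat.prime_three hN3 hA (N := N)
  have hj0 : jFib (ResidueField A) N ≠ 0 := fun h => by rw [h, Place.ord_zero] at hR; omega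
  obtain ⟨P₀, hP₀, hP₀neg⟩ := (exists_place_eq hr hj0 R).2 hR
  have e := redDiv_polePart_eq _ hr (transcendental_jBar Qb N) transcendental_jFib
    (AwayThree.finrank_adjoin_jFib Nat.prime_three hN3 hA) R
  rw [polePart_apply, Finsupp.mapDomain.addMonoidHom_apply, Finsupp.mapDomain, Finsupp.sum_apply,
    Finsupp.sum, Finset.sum_eq_single P₀] at e
  · rw [Finsupp.single_apply, if_pos hP₀, polePart_apply, max_eq_right (by omega),
      max_eq_right (by omega), neg_inj] at e
    rw [← e]
    exact not_three_dvd_ord_jBar hN3 hP₀neg
  · intro P hP hne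
    rw [Finsupp.single_apply, if_neg]
    intro hPR
    rw [Finsupp.mem_support_iff, polePart_apply] at hP
    exact hne (injOn_special hA h4 hN3 (mem_special_of_ord_neg (A := A) h4 (by omega))
      (mem_special_of_ord_neg (A := A) h4 hP₀neg) (hPR.trans hP₀.symm))
  · intro h
    rw [Finsupp.notMem_support_iff.mp h]
    simp

end FermatAgent.MazurPrinciple.PThree
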