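import Fermat.Agent.MazurPrinciple.PThree.Kummer
import Fermat.Agent.MazurPrinciple.Descend

/-!
# Pulling back to level `4 N` is injective on classes of order three
-/

set_option autoImplicit false
set_option maxHeartbeats 800000

noncomputable section

namespace FermatAgent.MazurPrinciple.PThree

open AlgebraicCurve ModularCurve
open FermatAgent.Curve (divisorOf IsFunctionField1)
open FermatAgent.BadRed
open FermatAgent.ModFun FermatAgent.ES

local notation "Qb" => AlgebraicClosure ℚ
local notation "𝐅" N:max => laurentBaseChange Qb (modularFunctionFieldFull N)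

attribute [local instance] ModCurveTorsion.isFunctionField1_laurent

variable [h3 : Fact (Nat.Prime 3)] {N : ℕ} [NeZero N] [NeZero (3 * N)] [NeZero (4 * N)]
  [NeZero (3 * (4 * N))]

/-- **Pulling back to level `4 N` is injective, for odd `N`.** -/
theorem pullbackInjective (h2 : ¬ 2 ∣ N) :
    PullbackInjective (p := 3) (dvd_mul_left N 4) := by
  have := FermatAgent.Curve.instHasPrincipalDivisors (K := Qb) (F := 𝐅 (3 * N))
  intro D u hu hD Φ hΦ
  have h2' : ¬ 2 ∣ 3 * N := fun h =>
    (Nat.prime_two.dvd_mul.mp h).elim (by norm_num) h2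
  have hΦ' : (Φ : LaurentSeries Qb) ∈ modularFunctionFieldBar (3 * N * 2 * 2) :=
    congrArg modularFunctionFieldBar (show 3 * (4 * N) = 3 * N * 2 * 2 by ring) ▸ Φ.2
  obtain ⟨w, hw⟩ := exists_cube_of_four h2' (u := u) (Φ := ⟨_, hΦ'⟩)
    (by
      show (Φ : LaurentSeries Qb) ^ 3 = _
      rw [← SubmonoidClass.coe_pow, hΦ, AtP.coe_upLevel])
  have hw0 : w ≠ 0 := fun e => hu (by rw [← hw, e, zero_pow three_ne_zero])
  refine (QuotientAddGroup.eq_zero_iff _).mpr (AddSubgroup.mem_addSubgroupOf.mpr ⟨w, hw0, ?_⟩)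
  intro v
  have h := DFunLike.congr_fun hD v
  rw [Finsupp.smul_apply, nsmul_eq_mul, Curve.divisorOf_apply, ← hw, Curve.ord_pow'] at h
  exact mul_left_cancel₀ (by norm_num : ((3 : ℕ) : ℤ) ≠ 0) h

end FermatAgent.MazurPrinciple.PThree
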