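import Mathlib.FieldTheory.IsAlgClosed.Basic
import Mathlib.Algebra.CharP.Lemmas
import Mathlib.Algebra.Polynomial.Derivative

/-!
# Values of a rational function of degree six in characteristic three

For `P` of degree nine whose roots outside the roots of `R = X² + X` have multiplicities divisible
by three, `P / R⁴` takes no nonzero value more than twice at a point outside the roots of `R`.
-/

set_option autoImplicit false

noncomputable section

open Polynomial

namespace FermatAgent.MazurPrinciple.PThree

variable {k : Type*} [Field k]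

theorem eval_rThree (a : k) : (X ^ 2 + X : k[X]).eval a = a * (a + 1) := by
  simp; ring

/-- A power of a linear factor whose derivative is a multiple, in `R`-units. -/
theorem derivative_linear_pow_mul (m : ℕ) {r : k} (h : r * (r + 1) = 0 ∨ (m : k) = 0) :
    derivative ((X - C r) ^ m) * (X ^ 2 + X) =
      (X - C r) ^ m * (C (m : k) * X + C ((m : k) * (r + 1))) := by
  rw [derivative_pow, derivative_X_sub_C, mul_one]
  by_cases hm : (m : k) = 0
  · simp [hm]
  obtain ⟨n, rfl⟩ : ∃ n, m = n + 1 := ⟨m - 1, by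
    have : m ≠ 0 := fun e => hm (by simp [e])
    omega⟩
  have hr : (C r : k[X]) * (C r + 1) = 0 := by
    rw [show (C r : k[X]) + 1 = C (r + 1) by simp, ← C_mul, h.resolve_right hm, C_0]
  rw [Nat.add_sub_cancel, pow_succ, map_mul]
  simp only [map_natCast, map_add, map_one]
  linear_combination (((n + 1 : ℕ) : k[X]) * (X - C r) ^ n) * hr

/-- The logarithmic derivative of a product of such powers. -/
theorem derivative_prod_mul (s : Finset k) (e : k → ℕ)
    (h : ∀ r ∈ s, r * (r + 1) = 0 ∨ (e r : k) = 0) :
    derivative (∏ r ∈ s, (X - C r) ^ e r) * (X ^ 2 + X) =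
      (∏ r ∈ s, (X - C r) ^ e r) *
        (C (∑ r ∈ s, (e r : k)) * X + C (∑ r ∈ s, (e r : k) * (r + 1))) := by
  classical
  induction s using Finset.induction_on with
  | empty => simp
  | insert a s ha ih =>
    rw [Finset.prod_insert ha, Finset.sum_insert ha, Finset.sum_insert ha, derivative_mul]
    have h1 := derivative_linear_pow_mul (e a) (h a (Finset.mem_insert_self a s))
    have h2 := ih fun r hr => h r (Finset.mem_insert_of_mem hr)
    rw [map_add, map_add]
    linear_combination (∏ r ∈ s, (X - C r) ^ e r) * h1 + (X - C a) ^ e a * h2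

variable [IsAlgClosed k] [CharP k 3]

omit [IsAlgClosed k] in
theorem three_eq_zero : (3 : k) = 0 := by
  simpa using CharP.cast_eq_zero k 3

/-- The derivative of `P` is a constant multiple of `P / R`. -/
theorem exists_derivative_mul {P : k[X]} (hdeg : (3 : ℕ) ∣ P.natDegree)
    (hroots : ∀ r, P.eval r = 0 → r * (r + 1) ≠ 0 → 3 ∣ P.rootMultiplicity r) :
    ∃ e : k, derivative P * (X ^ 2 + X) = P * C e := by
  classical
  rcases eq_or_ne P 0 with rfl | hP
  · exact ⟨0, by simp⟩
  have hsplit := IsAlgClosed.splits P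
  have hprod : P = C P.leadingCoeff * ∏ r ∈ P.roots.toFinset, (X - C r) ^ P.roots.count r := by
    conv_lhs => rw [hsplit.eq_prod_roots]
    rw [Finset.prod_multiset_map_count]
  have hcount : ∀ r ∈ P.roots.toFinset, r * (r + 1) = 0 ∨ (P.roots.count r : k) = 0 := fun r hr => by
    refine or_iff_not_imp_left.mpr fun hne => ?_
    rw [CharP.cast_eq_zero_iff k 3, count_roots]
    exact hroots r (Polynomial.mem_roots hP |>.mp (Multiset.mem_toFinset.mp hr)) hne
  have hsum : ∑ r ∈ P.roots.toFinset, (P.roots.count r : k) = 0 := by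
    rw [← Nat.cast_sum, Multiset.toFinset_sum_count_eq, ← hsplit.natDegree_eq_card_roots]
    exact (CharP.cast_eq_zero_iff k 3 _).mpr hdeg
  refine ⟨∑ r ∈ P.roots.toFinset, (P.roots.count r : k) * (r + 1), ?_⟩
  have h := derivative_prod_mul P.roots.toFinset (fun r => P.roots.count r) hcount
  rw [hsum, C_0, zero_mul, zero_add] at h
  generalize (∑ r ∈ P.roots.toFinset, (P.roots.count r : k) * (r + 1)) = E at h ⊢
  rw [hprod, derivative_C_mul, mul_assoc, h, mul_assoc]

/-- **Nonzero values have multiplicity at most two.** -/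
theorem rootMultiplicity_le_two {P : k[X]} (hdeg : P.natDegree = 9)
    (hroots : ∀ r, P.eval r = 0 → r * (r + 1) ≠ 0 → 3 ∣ P.rootMultiplicity r) {c a : k}
    (hc : c ≠ 0) (ha : a * (a + 1) ≠ 0) :
    (P - C c * (X ^ 2 + X) ^ 4).rootMultiplicity a ≤ 2 := by
  obtain ⟨e, he⟩ := exists_derivative_mul (hdeg ▸ (by norm_num)) hroots
  set G := P - C c * (X ^ 2 + X) ^ 4 with hG
  by_contra! hgt
  have hG0 : G ≠ 0 := fun h0 => by rw [h0, rootMultiplicity_zero] at hgt; omega
  obtain ⟨g, hg⟩ := (pow_dvd_pow _ hgt).trans (G.pow_rootMultiplicity_dvd a)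
  have hd1 : (X - C a) ^ 2 ∣ G := ⟨(X - C a) * g, by rw [hg]; ring⟩
  have hd2 : (X - C a) ^ 2 ∣ derivative G := by
    refine ⟨C 3 * g + (X - C a) * derivative g, ?_⟩
    rw [hg, derivative_mul, derivative_pow, derivative_X_sub_C, mul_one]
    simp only [Nat.add_one_sub_one]
    push_cast
    ring
  have h30 : (3 : k[X]) = 0 := by rw [← Polynomial.C_ofNat, three_eq_zero, C_0]
  have key : derivative G * (X ^ 2 + X) - 4 * G * derivative (X ^ 2 + X : k[X]) =
      P * (X + C (e - 4)) := by
    have hd : derivative (X ^ 2 + X : k[X]) = 2 * X + 1 := by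
      simp [derivative_pow, Polynomial.C_ofNat]
    rw [hG, derivative_sub, derivative_mul, derivative_C, zero_mul, zero_add, derivative_pow, hd]
    simp only [Nat.add_one_sub_one, map_sub]
    push_cast
    rw [show (C (4 : k) : k[X]) = 4 from Polynomial.C_ofNat 4]
    linear_combination he - (3 * P * X) * h30
  have hdvd : (X - C a) ^ 2 ∣ P * (X + C (e - 4)) := by
    rw [← key]
    exact dvd_sub (hd2.mul_right _) ((hd1.mul_left _).mul_right _)
  have hPa : ¬ (X - C a) ∣ P := by
    rw [dvd_iff_isRoot, IsRoot.def]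
    intro h0
    have h1 : G.eval a = 0 := by rw [hg]; simp
    rw [hG] at h1
    simp only [eval_sub, eval_mul, eval_C, eval_pow] at h1
    rw [h0, zero_sub, neg_eq_zero, eval_rThree] at h1
    exact (mul_ne_zero hc (pow_ne_zero _ ha)) h1
  have hco : IsCoprime ((X - C a) ^ 2) P :=
    ((irreducible_X_sub_C a).coprime_iff_not_dvd.mpr hPa).pow_left
  have := natDegree_le_of_dvd (hco.dvd_of_dvd_mul_left hdvd) (X_add_C_ne_zero _)
  rw [natDegree_pow, natDegree_X_sub_C, natDegree_X_add_C] at this
  omega

end FermatAgent.MazurPrinciple.PThree
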