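import Fermat.Agent.MazurPrinciple.General.Final
import Fermat.Agent.Wiring.Final.Gaps

/-!
# The step PLOW of modularity lifting
-/

set_option autoImplicit false

noncomputable section

namespace FermatAgent.MazurPrinciple

/-- **`p` leaves the level when `E[p]` is flat**, for every odd `p`. -/
theorem pLowering : Wiring.Final.PLowering := by
  intro W p _ hp2 hW hss hirr M hM hpM hflat hres
  have hΔ : (W.map (Int.castRingHom ℚ)).Δ ≠ 0 := by
    rw [WeierstrassCurve.map_Δ, eq_intCast, Int.cast_ne_zero]
    exact hW
  obtain ⟨A, hA⟩ := RT.exists_liesOverPrime (Fact.out : p.Prime)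
  have hbase := baseInput W p hΔ hp2 hss hflat hirr A hA
  exact residuallyModular_div_of_lowering W hΔ hM.ne_zero
    (fun h => (Fact.out : p.Prime).not_isUnit (hM p (by rwa [← sq]))) hpM
    (fun N _ S _ hN hS hgood hMS hcong =>
      General.hasCongruentForm W hΔ hirr hp2 hS hgood hN hMS hA hbase hcong) hres

end FermatAgent.MazurPrinciple
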