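import Fermat.Agent.ES.NormFormula
import Fermat.Agent.ES.Degree
import Fermat.Agent.ModCurve.Torsion.DegreeRatio

/-!
# A cube at an auxiliary level is a cube

Raising the level by `2` prime to the level is a cubic extension which is not Kummer: the second
embedding in Laurent series takes a cube root to a cube root, hence a series in `q²`, but does not
take `j(2τ)` to one.
-/

set_option autoImplicit false
set_option linter.style.haveILetI false
set_option maxHeartbeats 800000

noncomputable section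

open AlgebraicCurve ModularCurve
open FermatAgent.ES

namespace FermatAgent.MazurPrinciple.PThree

local notation "Qb" => AlgebraicClosure ℚ

variable {L : ℕ} [NeZero L]

theorem finrankAlong_two_of_not_dvd (h2 : ¬ 2 ∣ L) :
    finrankAlong Qb (heckeAlphaBar Qb L 2) = 3 := by
  have h := ModCurveTorsion.finrankAlong_heckeAlphaBar L 2 Qb
  rw [ModCurveTorsion.dedekindPsi_mul_of_not_dvd (NeZero.ne L) Nat.prime_two h2, mul_comm (2 + 1)]
    at h
  exact Nat.eq_of_mul_eq_mul_left (ModCurveTorsion.dedekindPsi_pos (NeZero.ne L)) h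

theorem finrankAlong_two_of_dvd (h2 : 2 ∣ L) :
    finrankAlong Qb (heckeAlphaBar Qb L 2) = 2 := by
  have h := ModCurveTorsion.finrankAlong_heckeAlphaBar L 2 Qb
  rw [ModCurveTorsion.dedekindPsi_mul_of_dvd (NeZero.ne L) Nat.prime_two h2, mul_comm 2] at h
  exact Nat.eq_of_mul_eq_mul_left (ModCurveTorsion.dedekindPsi_pos (NeZero.ne L)) h

/-- An element whose image under an extension of degree two is a cube is a cube. -/
theorem exists_cube_of_degree_two {K F F' : Type*} [Field K] [Field F] [Field F'] [Algebra K F]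
    [Algebra K F'] (φ : F →ₐ[K] F') (hdeg : finrankAlong K φ = 2) {u : F} {Φ : F'}
    (hΦ : Φ ^ 3 = φ u) : ∃ w : F, w ^ 3 = u := by
  rcases eq_or_ne u 0 with rfl | hu
  · exact ⟨0, by simp⟩
  let := algebraAlong φ
  have hnorm : normAlong φ Φ ^ 3 = u ^ 2 := by
    show Algebra.norm F Φ ^ 3 = _
    rw [← map_pow, hΦ, ← hdeg]
    exact Algebra.norm_algebraMap u
  refine ⟨u / normAlong φ Φ, ?_⟩
  rw [div_pow, hnorm]
  field_simp

/-- **A cube at level `2 L` is a cube at level `L`, for odd `L`.** -/
theorem exists_cube_of_alpha (h2 : ¬ 2 ∣ L) {u : modularFunctionFieldBar L}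
    {Φ : modularFunctionFieldBar (L * 2)} (hΦ : Φ ^ 3 = heckeAlphaBar Qb L 2 u) :
    ∃ w : modularFunctionFieldBar L, w ^ 3 = u := by
  obtain ⟨σ, hσα, hσβ⟩ := exists_embTwist (N := L) (ℓ := 2) Nat.prime_two h2 (ζ := 1) (b := 0)
    (by ext; simp [FermatAgent.ModFun.expUnit])
  letI := algebraAlong (heckeAlphaBar Qb L 2)
  haveI := AlgebraicCurve.isScalarTower_along (heckeAlphaBar Qb L 2)
  let T : Subfield (LaurentSeries Qb) := (qExpand Qb 2).fieldRange
  let E : IntermediateField (modularFunctionFieldBar L) (modularFunctionFieldBar (L * 2)) :=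
    { T.comap σ.toRingHom with
      algebraMap_mem' := fun a => ⟨(a : LaurentSeries Qb), (hσα a).symm⟩ }
  have hE : Φ ∈ E := by
    show σ Φ ∈ T
    rcases eq_or_ne (Φ : LaurentSeries Qb) 0 with h0 | h0
    · rw [show Φ = 0 from Subtype.ext h0, map_zero]
      exact zero_mem _
    have hx : qExpand Qb 2 (Φ : LaurentSeries Qb) ≠ 0 :=
      (map_ne_zero_iff _ (qExpand_injective (R := Qb) 2)).mpr h0
    have hcube : (σ Φ / qExpand Qb 2 (Φ : LaurentSeries Qb)) ^ 3 = 1 := by
      rw [div_pow, div_eq_one_iff_eq (pow_ne_zero _ hx), ← map_pow, ← map_pow,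
        ← SubmonoidClass.coe_pow, hΦ, hσα, coe_heckeAlphaBar]
    obtain ⟨ζ, hζ⟩ := HasEnoughRootsOfUnity.exists_primitiveRoot Qb 3
    obtain ⟨i, -, hi⟩ := (hζ.map_of_injective (f := algebraMap Qb (LaurentSeries Qb))
      (algebraMap Qb (LaurentSeries Qb)).injective).eq_pow_of_pow_eq_one hcube
    refine ⟨HahnSeries.C (ζ ^ i) * (Φ : LaurentSeries Qb), ?_⟩
    rw [map_mul, qExpand_C, map_pow, ← (div_eq_iff hx).mp hi.symm |>.symm]
    rw [HahnSeries.C_apply, ← algebraMap_laurentSeries_eq_single]
  have hne : E ≠ ⊤ := by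
    intro htop
    obtain ⟨t, ht⟩ : σ (heckeBetaBar Qb L 2 (jOne L)) ∈ T :=
      (show heckeBetaBar Qb L 2 (jOne L) ∈ E from htop ▸ IntermediateField.mem_top)
    rw [hσβ, pow_zero, qTwist_one_apply,
      show ((jOne L : modularFunctionFieldBar L) : LaurentSeries Qb) = jqModC Qb from
        qExpand_one_apply _] at ht
    have h1 := coeff_jqModC_neg_one Qb
    rw [← ht, qExpand_coeff_of_not_dvd 2 t (by norm_num)] at h1
    exact zero_ne_one h1
  have hfin : Module.finrank (modularFunctionFieldBar L) (modularFunctionFieldBar (L * 2)) = 3 :=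
    finrankAlong_two_of_not_dvd h2
  have hbot : E = ⊥ := by
    have hd : Module.finrank (modularFunctionFieldBar L) E ∣ 3 :=
      hfin ▸ Dvd.intro _ (Module.finrank_mul_finrank _ E (modularFunctionFieldBar (L * 2)))
    rcases (Nat.dvd_prime Nat.prime_three).mp hd with h | h
    · exact IntermediateField.finrank_eq_one_iff.mp h
    · haveI : Module.Finite (modularFunctionFieldBar L) (modularFunctionFieldBar (L * 2)) :=
        Module.finite_of_finrank_eq_succ hfin
      exact absurd (IntermediateField.eq_of_le_of_finrank_eq le_top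
        (h.trans (by rw [IntermediateField.finrank_top', hfin]))) hne
  rw [hbot, IntermediateField.mem_bot] at hE
  obtain ⟨w, rfl⟩ := hE
  exact ⟨w, (algebraMap (modularFunctionFieldBar L) (modularFunctionFieldBar (L * 2))).injective
    ((map_pow _ w 3).trans hΦ)⟩

/-- A cube at level `4 L` is a cube at level `L`, for odd `L`. -/
theorem exists_cube_of_four (h2 : ¬ 2 ∣ L) {u : modularFunctionFieldBar L}
    {Φ : modularFunctionFieldBar (L * 2 * 2)}
    (hΦ : (Φ : LaurentSeries Qb) ^ 3 = u) : ∃ w : modularFunctionFieldBar L, w ^ 3 = u := by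
  obtain ⟨v, hv⟩ := exists_cube_of_degree_two (heckeAlphaBar Qb (L * 2) 2)
    (finrankAlong_two_of_dvd (dvd_mul_left 2 L)) (u := heckeAlphaBar Qb L 2 u) (Φ := Φ)
    (Subtype.ext (by
      rw [SubmonoidClass.coe_pow, hΦ, coe_heckeAlphaBar, coe_heckeAlphaBar]))
  exact exists_cube_of_alpha h2 hv

end FermatAgent.MazurPrinciple.PThree
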