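import Fermat.Agent.MazurPrinciple.PThree.CharThree
import Fermat.Agent.MazurPrinciple.AwayThree.LevelNine

/-!
# The ramification of `j` on the fibre at three, at levels divisible by four

In the coordinate of level four: the orders over `0` are `6`, those over other values at most `2`.
-/

set_option autoImplicit false
set_option linter.unusedSectionVars false
set_option linter.style.haveILetI false
set_option maxHeartbeats 1000000

noncomputable section

open Polynomial AlgebraicCurve IntermediateField IsLocalRing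
open FermatAgent.Curve FermatAgent.JacCharts FermatAgent.ModFun FermatAgent.BadRed.Semistable
open FermatAgent.BadRed.Carayol.Instance
open ModularCurve (coeffMap modularFunctionFieldFullC modularFunctionFieldBar)
open FermatAgent.MazurPrinciple (inertiaField)

namespace FermatAgent.MazurPrinciple.PThree

local notation "Qb" => AlgebraicClosure ℚ

variable {A : ValuationSubring Qb} {N : ℕ} [NeZero N] (hA : A.LiesOverPrime 3) (h4 : 4 ∣ N)
  (hN3 : ¬ 3 ∣ N)

theorem not_two_dvd_three : ¬ 2 ∣ 3 := by norm_num

/-- The coordinate of level four at three. -/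
abbrev H4 : Hauptmodul 3 := hauptmodul4 3 not_two_dvd_three

/-- Its cusp polynomial. -/
abbrev R4 : ℤ[X] := X ^ 2 + C 16 * X

include hA in
theorem charP_three : CharP (ResidueField A) 3 := Igusa.Down.charP_residueField Nat.prime_three hA

include hA in
theorem map_R4 : R4.map (Int.castRingHom (ResidueField A)) = X ^ 2 + X := by
  haveI := charP_three hA
  have h30 : (3 : (ResidueField A)[X]) = 0 := by
    rw [← Polynomial.C_ofNat, three_eq_zero, C_0]
  simp
  linear_combination (5 : (ResidueField A)[X]) * h30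

/-- The roots of the cusp polynomial at level four are not values on the upper half plane. -/
theorem u4_not_root (τ : UpperHalfPlane) : R4.eval₂ (Int.castRingHom ℂ) (u4 τ) ≠ 0 := by
  simp only [eval₂_add, eval₂_mul, eval₂_X_pow, eval₂_X, eval₂_C]
  simp only [eq_intCast, Int.cast_ofNat]
  rw [u4_identity]
  exact etaQuot_ne_zero 2 4 24 2 τ

variable [IsAlgClosed (ResidueField A)]
  [IsFunctionField1 Qb (modularFunctionFieldBar N)]
  [IsFunctionField1 (ResidueField A) (modularFunctionFieldFullC (ResidueField A) N)]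

/-- The numerator of `j` in the coordinate. -/
def jPoly4 : ℤ[X] := (exists_j_eq_eval H4 (hauptmodul4_isCuspPoly not_two_dvd_three)).choose

variable (A) in
/-- The numerator modulo `3`. -/
def jPolyThree : (ResidueField A)[X] := jPoly4.map (Int.castRingHom (ResidueField A))

include h4 hA hN3 in
theorem aeval_uBar_jPolyThree :
    aeval (uBar H4 h4 A hA hN3) (jPolyThree A) =
      jFib (ResidueField A) N *
        aeval (uBar H4 h4 A hA hN3) (X ^ 2 + X : (ResidueField A)[X]) ^ 4 ∧
    (jPolyThree A).natDegree = 9 := by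
  have hS := map_R4 hA
  obtain ⟨h1, h2⟩ := AwayThree.aeval_uBar_numerator hA hN3 H4 h4
    (hauptmodul4_isCuspPoly not_two_dvd_three) hS
    (exists_j_eq_eval H4 (hauptmodul4_isCuspPoly not_two_dvd_three)).choose_spec
  refine ⟨h1, h2.trans ?_⟩
  rw [show (X ^ 2 + X : (ResidueField A)[X]).natDegree = 2 by compute_degree!]
  rfl

include h4 hA hN3 in
/-- Where `j` is finite the coordinate is finite and not a cusp value, and is simple. -/
theorem exists_value_uBar {Q : Place (ResidueField A) (modularFunctionFieldFullC (ResidueField A) N)}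
    (hQ : 0 ≤ Q.ord (jFib (ResidueField A) N)) :
    ∃ a : ResidueField A, (X ^ 2 + X : (ResidueField A)[X]).eval a ≠ 0 ∧
      Q.ord (uBar H4 h4 A hA hN3 - algebraMap (ResidueField A) _ a) = 1 := by
  obtain ⟨hrel, hdeg⟩ := aeval_uBar_jPolyThree hA h4 hN3
  refine AwayThree.exists_value_of_coord hA hN3 H4 h4 (hauptmodul4_isCuspPoly not_two_dvd_three)
    (map_R4 hA) hrel ?_ (by simp) (hauptmodul4_isCoord 3 not_two_dvd_three) u4_not_root hQ
  rw [hdeg, show (X ^ 2 + X : (ResidueField A)[X]).natDegree = 2 by compute_degree!]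
  norm_num

include h4 hA hN3 in
/-- At a value `a` of the coordinate, the order of `j - c` is a multiplicity. -/
theorem ord_jFib_sub_eq {Q : Place (ResidueField A) (modularFunctionFieldFullC (ResidueField A) N)}
    {a : ResidueField A} (ha : (X ^ 2 + X : (ResidueField A)[X]).eval a ≠ 0)
    (hQ : Q.ord (uBar H4 h4 A hA hN3 - algebraMap (ResidueField A) _ a) = 1) (c : ResidueField A) :
    Q.ord (jFib (ResidueField A) N - algebraMap (ResidueField A) _ c) =
      (jPolyThree A - C c * (X ^ 2 + X) ^ 4).rootMultiplicity a := by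
  obtain ⟨hrel, -⟩ := aeval_uBar_jPolyThree hA h4 hN3
  exact AwayThree.ord_jFib_sub_of_coord hA hN3 H4 h4 (hauptmodul4_isCuspPoly not_two_dvd_three)
    (map_R4 hA) hrel ha hQ c

include h4 hA hN3 in
/-- Over zero the orders are divisible by `6`. -/
theorem six_dvd_ord_jFib {Q : Place (ResidueField A) (modularFunctionFieldFullC (ResidueField A) N)}
    (hQ : 0 < Q.ord (jFib (ResidueField A) N)) : (6 : ℤ) ∣ Q.ord (jFib (ResidueField A) N) := by
  haveI := charP_three hA
  refine AwayThree.six_dvd_ord_jFib_of_elliptic Nat.prime_three hN3 hA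
    (AwayThree.nuTwo_eq_zero (Or.inl h4)) (AwayThree.nuThree_eq_zero (Or.inl h4)) ?_ hQ
  rw [show (1728 : A) = ((3 * 576 : ℕ) : A) by norm_num, map_natCast, Nat.cast_mul,
    Nat.cast_ofNat, three_eq_zero, zero_mul]

include h4 hA hN3 in
/-- The roots of the numerator off the cusps have multiplicities divisible by `6`. -/
theorem six_dvd_rootMultiplicity {r : ResidueField A} (hr : (jPolyThree A).eval r = 0)
    (hRr : r * (r + 1) ≠ 0) : 6 ∣ (jPolyThree A).rootMultiplicity r := by
  haveI := Fact.mk (inertiaRes_surjective Nat.prime_three hA)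
  rw [← eval_rThree] at hRr
  obtain ⟨-, hdeg⟩ := aeval_uBar_jPolyThree hA h4 hN3
  obtain ⟨Q, hQ⟩ := exists_ord_pos_of_transcendental
    (Curve.transcendental_sub_const (transcendental_uBar H4 h4 A hA hN3) r)
  have h1 := ord_uBar_sub_le_one' hA hN3 H4 h4 (hauptmodul4_isCuspPoly not_two_dvd_three)
    (by simp) (hauptmodul4_isCoord 3 not_two_dvd_three) (AwayThree.inertiaRes_ne_of_eval_ne_zero
      hA H4 (hauptmodul4_isCuspPoly not_two_dvd_three) (map_R4 hA) hRr) Q
  have he := ord_jFib_sub_eq hA h4 hN3 hRr (le_antisymm h1 (by omega)) 0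
  rw [map_zero, map_zero, sub_zero, zero_mul, sub_zero] at he
  have hne : jPolyThree A ≠ 0 := fun e => by rw [e, natDegree_zero] at hdeg; omega
  have h6 := six_dvd_ord_jFib hA h4 hN3 (Q := Q)
    (by rw [he]; exact_mod_cast (rootMultiplicity_pos hne).mpr hr)
  rw [he] at h6
  exact_mod_cast h6

include hA h4 hN3 in
/-- Over zero the orders are six. -/
theorem ord_jFib_eq_six {Q : Place (ResidueField A) (modularFunctionFieldFullC (ResidueField A) N)}
    (hQ : 0 < Q.ord (jFib (ResidueField A) N)) : Q.ord (jFib (ResidueField A) N) = 6 := by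
  obtain ⟨-, hdeg⟩ := aeval_uBar_jPolyThree hA h4 hN3
  obtain ⟨a, ha, ha1⟩ := exists_value_uBar hA h4 hN3 hQ.le
  have he := ord_jFib_sub_eq hA h4 hN3 ha ha1 0
  rw [map_zero, map_zero, sub_zero, zero_mul, sub_zero] at he
  have hne : jPolyThree A ≠ 0 := fun e => by rw [e, natDegree_zero] at hdeg; omega
  have hle := Polynomial.natDegree_le_of_dvd ((jPolyThree A).pow_rootMultiplicity_dvd a) hne
  rw [natDegree_pow, natDegree_X_sub_C, mul_one, hdeg] at hle
  have h6 := six_dvd_ord_jFib hA h4 hN3 hQ
  rw [he] at h6 hQ ⊢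
  omega

include hA h4 hN3 in
/-- A nonzero value is taken at most twice. -/
theorem ord_jFib_sub_le_two {c : ResidueField A} (hc : c ≠ 0)
    (Q : Place (ResidueField A) (modularFunctionFieldFullC (ResidueField A) N)) :
    Q.ord (jFib (ResidueField A) N - algebraMap (ResidueField A) _ c) ≤ 2 := by
  haveI := charP_three hA
  by_contra! hgt
  obtain ⟨-, hdeg⟩ := aeval_uBar_jPolyThree hA h4 hN3
  have hfin : 0 ≤ Q.ord (jFib (ResidueField A) N) := by
    have h := add_mem ((Curve.mem_iff_ord_nonneg Q).mpr (Or.inr (by omega : (0 : ℤ) ≤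
      Q.ord (jFib (ResidueField A) N - algebraMap (ResidueField A) _ c))))
      (Q.algebraMap_mem' c)
    rw [sub_add_cancel] at h
    exact ord_nonneg_of_mem' Q h
  obtain ⟨a, ha, ha1⟩ := exists_value_uBar hA h4 hN3 hfin
  rw [ord_jFib_sub_eq hA h4 hN3 ha ha1 c] at hgt
  have := rootMultiplicity_le_two hdeg (fun r hr hRr =>
    dvd_trans (by norm_num) (six_dvd_rootMultiplicity hA h4 hN3 hr hRr)) hc (eval_rThree a ▸ ha)
  omega

include hA h4 hN3 in
/-- The bound needed for the descent of orders divisible by three. -/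
theorem ord_jFib_bound (R : Place (ResidueField A) (modularFunctionFieldFullC (ResidueField A) N))
    (c : ResidueField A) :
    (c = 0 → 0 < R.ord (jFib (ResidueField A) N) → ¬ (9 : ℤ) ∣ R.ord (jFib (ResidueField A) N)) ∧
    (c ≠ 0 → R.ord (jFib (ResidueField A) N - algebraMap (ResidueField A) _ c) ≤ 2) :=
  ⟨fun _ h => by rw [ord_jFib_eq_six hA h4 hN3 h]; norm_num,
    fun hc => ord_jFib_sub_le_two hA h4 hN3 hc R⟩

end FermatAgent.MazurPrinciple.PThree
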